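import Mathlib
import Fermat.Prelude.Def_EllipticCurve_FrobeniusTrace

set_option autoImplicit false
set_option linter.style.haveILetI false

namespace Fermat.Agent.Lib.Frob

open scoped Pointwise

theorem algebra_eq : (DivisionRing.toRatAlgebra : Algebra ℚ (AlgebraicClosure ℚ)) =
    AlgebraicClosure.instAlgebra ℚ := Subsingleton.elim _ _

local instance instIsAlgClosureRat : IsAlgClosure ℚ (AlgebraicClosure ℚ) := by
  rw [algebra_eq]; infer_instance

/-- The ring of algebraic integers inside `AlgebraicClosure ℚ`. -/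
noncomputable abbrev Zbar : Subalgebra ℤ (AlgebraicClosure ℚ) := integralClosure ℤ (AlgebraicClosure ℚ)

noncomputable local instance instMulSemiringActionZbar :
    MulSemiringAction (AlgebraicClosure ℚ ≃ₐ[ℚ] AlgebraicClosure ℚ) Zbar where
  smul σ b := ⟨σ b.1, map_isIntegral_int σ b.2⟩
  one_smul _ := Subtype.ext rfl
  mul_smul _ _ _ := Subtype.ext rfl
  smul_zero σ := Subtype.ext (map_zero σ)
  smul_add σ a b := Subtype.ext (map_add σ a.1 b.1)
  smul_one σ := Subtype.ext (map_one σ)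
  smul_mul σ a b := Subtype.ext (map_mul σ a.1 b.1)

theorem coe_smul_Zbar (σ : AlgebraicClosure ℚ ≃ₐ[ℚ] AlgebraicClosure ℚ) (b : Zbar) :
    ((σ • b : Zbar) : AlgebraicClosure ℚ) = σ (b : AlgebraicClosure ℚ) := rfl

local instance instIsInvariantZbar :
    Algebra.IsInvariant ℤ Zbar (AlgebraicClosure ℚ ≃ₐ[ℚ] AlgebraicClosure ℚ) where
  isInvariant b hb := by
    have h1 : (b : AlgebraicClosure ℚ) ∈ Set.range (algebraMap ℚ (AlgebraicClosure ℚ)) :=
      (InfiniteGalois.mem_range_algebraMap_iff_fixed _).mpr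
        (fun f => congrArg Subtype.val (hb f))
    obtain ⟨q, hq⟩ := h1
    have h2 : IsIntegral ℤ q := by
      have := b.2
      rw [← hq] at this
      exact (isIntegral_algebraMap_iff (algebraMap ℚ (AlgebraicClosure ℚ)).injective).mp this
    obtain ⟨n, hn⟩ := IsIntegrallyClosed.algebraMap_eq_of_integral h2
    refine ⟨n, Subtype.ext ?_⟩
    rw [← hq, ← hn]
    simp


theorem stabilizer_isOpen_Zbar (b : Zbar) :
    IsOpen (MulAction.stabilizer (AlgebraicClosure ℚ ≃ₐ[ℚ] AlgebraicClosure ℚ) b :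
      Set (AlgebraicClosure ℚ ≃ₐ[ℚ] AlgebraicClosure ℚ)) := by
  have h := stabilizer_isOpen_of_isIntegral (K := ℚ) (L := AlgebraicClosure ℚ) b.1
  have e : (MulAction.stabilizer (AlgebraicClosure ℚ ≃ₐ[ℚ] AlgebraicClosure ℚ) b :
      Set (AlgebraicClosure ℚ ≃ₐ[ℚ] AlgebraicClosure ℚ)) =
      (MulAction.stabilizer (AlgebraicClosure ℚ ≃ₐ[ℚ] AlgebraicClosure ℚ) b.1 :
      Set (AlgebraicClosure ℚ ≃ₐ[ℚ] AlgebraicClosure ℚ)) := by
    ext σ
    simp only [SetLike.mem_coe, MulAction.mem_stabilizer_iff, Subtype.ext_iff, coe_smul_Zbar]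
    rfl
  rw [e]
  exact h

/-- Existence of a Frobenius lift on the ring of algebraic integers. -/
theorem exists_frobenius_lift_Zbar (ℓ : ℕ) (hℓ : ℓ.Prime) :
    ∃ (Q : Ideal Zbar) (g : AlgebraicClosure ℚ ≃ₐ[ℚ] AlgebraicClosure ℚ),
      Q.IsMaximal ∧ ((ℓ : ℤ) : Zbar) ∈ Q ∧ (∀ n : ℤ, (n : Zbar) ∈ Q → (ℓ : ℤ) ∣ n) ∧
      g • Q = Q ∧ ∀ b : Zbar, g • b - b ^ ℓ ∈ Q := by
  letI : TopologicalSpace Zbar := ⊥
  haveI : DiscreteTopology Zbar := ⟨rfl⟩
  haveI : ContinuousSMul (AlgebraicClosure ℚ ≃ₐ[ℚ] AlgebraicClosure ℚ) Zbar :=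
    continuousSMul_iff_stabilizer_isOpen.mpr stabilizer_isOpen_Zbar
  let P : Ideal ℤ := Ideal.span {(ℓ : ℤ)}
  haveI hPmax : P.IsMaximal :=
    PrincipalIdealRing.isMaximal_of_irreducible (Nat.prime_iff_prime_int.mp hℓ).irreducible
  obtain ⟨Q, hQmax, hQP⟩ := Ideal.exists_ideal_over_maximal_of_isIntegral (S := Zbar) P (by
    have : RingHom.ker (algebraMap ℤ Zbar) = ⊥ :=
      (RingHom.injective_iff_ker_eq_bot _).mp (FaithfulSMul.algebraMap_injective ℤ Zbar)
    rw [this]; exact bot_le)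
  haveI : Q.LiesOver P := ⟨hQP.symm⟩
  haveI : Q.IsPrime := hQmax.isPrime
  have hℓQ : ((ℓ : ℤ) : Zbar) ∈ Q := by
    have : (ℓ : ℤ) ∈ Ideal.comap (algebraMap ℤ Zbar) Q := by
      rw [hQP]; exact Ideal.subset_span rfl
    simpa using this
  have hQℓ : ∀ n : ℤ, (n : Zbar) ∈ Q → (ℓ : ℤ) ∣ n := by
    intro n hn
    have : n ∈ Ideal.comap (algebraMap ℤ Zbar) Q := by simpa using hn
    rw [hQP] at this
    exact Ideal.mem_span_singleton.mp this
  haveI : CharP (Zbar ⧸ Q) ℓ := by
    refine ⟨fun n => ?_⟩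
    rw [← map_natCast (Ideal.Quotient.mk Q), Ideal.Quotient.eq_zero_iff_mem]
    constructor
    · intro h
      have := hQℓ (n : ℤ) (by simpa using h)
      exact_mod_cast this
    · rintro ⟨k, rfl⟩
      have : ((ℓ * k : ℕ) : Zbar) = ((ℓ : ℤ) : Zbar) * (k : Zbar) := by push_cast; ring
      rw [this]
      exact Q.mul_mem_right _ hℓQ
  haveI : Fact ℓ.Prime := ⟨hℓ⟩
  have hinj : Function.Injective (frobenius (Zbar ⧸ Q) ℓ) := frobenius_inj (Zbar ⧸ Q) ℓ
  have hsurj : Function.Surjective (frobenius (Zbar ⧸ Q) ℓ) := by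
    intro x
    obtain ⟨b, rfl⟩ := Ideal.Quotient.mk_surjective x
    obtain ⟨c, hc⟩ := IsAlgClosed.exists_pow_nat_eq (b : AlgebraicClosure ℚ) hℓ.pos
    have hcint : IsIntegral ℤ c := IsIntegral.of_pow hℓ.pos (hc ▸ b.2)
    refine ⟨Ideal.Quotient.mk Q ⟨c, hcint⟩, ?_⟩
    rw [frobenius_def, ← map_pow]
    congr 1
    exact Subtype.ext hc
  let F : (Zbar ⧸ Q) ≃ₐ[ℤ ⧸ P] (Zbar ⧸ Q) :=
    AlgEquiv.ofBijective
      { (frobenius (Zbar ⧸ Q) ℓ) with
        commutes' := by
          intro r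
          obtain ⟨n, rfl⟩ := Ideal.Quotient.mk_surjective r
          show frobenius (Zbar ⧸ Q) ℓ _ = _
          have : algebraMap (ℤ ⧸ P) (Zbar ⧸ Q) (Ideal.Quotient.mk P n) = ((n : ℤ) : Zbar ⧸ Q) := by
            rw [Ideal.Quotient.algebraMap_mk_of_liesOver]
            simp
          rw [this, map_intCast] }
      ⟨hinj, hsurj⟩
  obtain ⟨⟨g, hg⟩, hgF⟩ := Ideal.Quotient.stabilizerHom_surjective_of_profinite
    (G := AlgebraicClosure ℚ ≃ₐ[ℚ] AlgebraicClosure ℚ) P Q F
  refine ⟨Q, g, hQmax, hℓQ, hQℓ, hg, fun b => ?_⟩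
  have h1 := congrArg (fun e => e (Ideal.Quotient.mk Q b)) hgF
  simp only [Ideal.Quotient.stabilizerHom_apply] at h1
  have h2 : F (Ideal.Quotient.mk Q b) = (Ideal.Quotient.mk Q b) ^ ℓ := rfl
  rw [h2, ← map_pow] at h1
  exact Ideal.Quotient.eq.mp h1


open Polynomial in
/-- The key lemma: a root of a polynomial over `Zbar` with a coefficient outside the prime `Q`
is, or has inverse, a fraction with denominator outside `Q`. -/
theorem frac_or_inv_frac (Q : Ideal Zbar) (x : AlgebraicClosure ℚ) :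
    ∀ (n : ℕ) (p : Polynomial Zbar), p.natDegree ≤ n → aeval x p = 0 →
      (∃ i, p.coeff i ∉ Q) →
      (∃ b s : Zbar, s ∉ Q ∧ x * (s : AlgebraicClosure ℚ) = b) ∨
      (∃ b s : Zbar, s ∉ Q ∧ x⁻¹ * (s : AlgebraicClosure ℚ) = b) := by
  intro n
  induction n with
  | zero =>
    intro p hdeg hroot ⟨i, hi⟩
    exfalso
    rw [Polynomial.eq_C_of_natDegree_le_zero hdeg] at hroot hi
    rw [aeval_C] at hroot
    have h0 : p.coeff 0 = 0 := by
      have : ((p.coeff 0 : Zbar) : AlgebraicClosure ℚ) = 0 := hroot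
      exact Subtype.ext this
    rw [h0, map_zero, coeff_zero] at hi
    exact hi Q.zero_mem
  | succ n ih =>
    intro p hdeg hroot hcoeff
    by_cases hlt : p.natDegree ≤ n
    · exact ih p hlt hroot hcoeff
    have hdeg' : p.natDegree = n + 1 := le_antisymm hdeg (Nat.succ_le_of_lt (not_le.mp hlt))
    set a : Zbar := p.leadingCoeff with ha
    have hy_int : IsIntegral ℤ ((a : AlgebraicClosure ℚ) * x) := by
      have h1 : IsIntegral Zbar (p.leadingCoeff • x) := isIntegral_leadingCoeff_smul p x hroot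
      have h2 : IsIntegral ℤ (p.leadingCoeff • x) := isIntegral_trans _ h1
      exact h2
    let y : Zbar := ⟨(a : AlgebraicClosure ℚ) * x, hy_int⟩
    have hsplit : p.eraseLead + C a * X ^ (n + 1) = p := by
      have := eraseLead_add_C_mul_X_pow p
      rwa [hdeg'] at this
    by_cases haQ : a ∈ Q
    · -- leading coefficient in `Q`
      let q : Polynomial Zbar := C y * X ^ n + p.eraseLead
      have hqdeg : q.natDegree ≤ n := by
        refine (natDegree_add_le _ _).trans (max_le ?_ ?_)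
        · exact (natDegree_C_mul_X_pow_le y n)
        · have := eraseLead_natDegree_le p
          rw [hdeg'] at this
          simpa using this
      have hqroot : aeval x q = 0 := by
        have h1 : aeval x p = aeval x p.eraseLead + (a : AlgebraicClosure ℚ) * x ^ (n + 1) := by
          conv_lhs => rw [← hsplit]
          simp [aeval_C]
        have h2 : aeval x q = (y : AlgebraicClosure ℚ) * x ^ n + aeval x p.eraseLead := by
          simp [q, aeval_C]
        rw [h2]
        rw [hroot] at h1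
        have h3 : (y : AlgebraicClosure ℚ) = (a : AlgebraicClosure ℚ) * x := rfl
        rw [h3, h1]
        ring
      by_cases hq : ∃ i, q.coeff i ∉ Q
      · exact ih q hqdeg hqroot hq
      · push Not at hq
        obtain ⟨i₀, hi₀⟩ := hcoeff
        have hi₀1 : i₀ ≠ n + 1 := by
          rintro rfl
          apply hi₀
          have : p.coeff (n + 1) = a := by rw [ha, leadingCoeff, hdeg']
          rw [this]; exact haQ
        have hqc : ∀ i, q.coeff i = (if i = n then y else 0) +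
            (if i = n + 1 then 0 else p.coeff i) := by
          intro i
          simp only [q, coeff_add, coeff_C_mul, coeff_X_pow, eraseLead_coeff, hdeg']
          congr 1
          split_ifs <;> simp
        by_cases hi₀n : i₀ = n
        · subst hi₀n
          have h1 := hq i₀
          rw [hqc i₀] at h1
          simp only [if_true, if_neg hi₀1] at h1
          have hyQ : y ∉ Q := by
            intro hyQ
            apply hi₀
            have := Q.sub_mem h1 hyQ
            simpa using this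
          right
          refine ⟨a, y, hyQ, ?_⟩
          have hy0 : (y : AlgebraicClosure ℚ) ≠ 0 := by
            intro h
            apply hyQ
            have : y = 0 := Subtype.ext h
            rw [this]; exact Q.zero_mem
          have hx0 : x ≠ 0 := by
            rintro rfl
            apply hy0
            show (a : AlgebraicClosure ℚ) * 0 = 0
            ring
          show x⁻¹ * ((a : AlgebraicClosure ℚ) * x) = a
          field_simp
        · exfalso
          have h1 := hq i₀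
          rw [hqc i₀] at h1
          simp only [if_neg hi₀n, if_neg hi₀1, zero_add] at h1
          exact hi₀ h1
    · -- leading coefficient outside `Q`
      left
      refine ⟨y, a, haQ, ?_⟩
      show x * (a : AlgebraicClosure ℚ) = (a : AlgebraicClosure ℚ) * x
      ring


open Polynomial in
theorem exists_poly_coeff_notMem (Q : Ideal Zbar) (ℓ : ℕ) (hℓ : ℓ.Prime)
    (hQℓ : ∀ n : ℤ, (n : Zbar) ∈ Q → (ℓ : ℤ) ∣ n) (x : AlgebraicClosure ℚ) :
    ∃ p : Polynomial Zbar, aeval x p = 0 ∧ ∃ i, p.coeff i ∉ Q := by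
  have halgQ : IsAlgebraic ℚ x := Algebra.IsAlgebraic.isAlgebraic x
  have halg : IsAlgebraic ℤ x := (IsFractionRing.isAlgebraic_iff ℤ ℚ (AlgebraicClosure ℚ)).mpr halgQ
  obtain ⟨p₀, hp₀, hroot⟩ := halg
  have h1 := p₀.eq_C_content_mul_primPart
  have hprim := p₀.isPrimitive_primPart
  have hc0 : p₀.content ≠ 0 := by
    intro h
    apply hp₀
    rw [h1, h]; simp
  have hroot' : aeval x p₀.primPart = 0 := by
    rw [h1, map_mul, aeval_C] at hroot
    rcases mul_eq_zero.mp hroot with h | h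
    · exfalso
      apply hc0
      have : ((p₀.content : ℤ) : AlgebraicClosure ℚ) = 0 := by simpa using h
      exact_mod_cast this
    · exact h
  refine ⟨p₀.primPart.map (algebraMap ℤ Zbar), ?_, ?_⟩
  · rw [aeval_map_algebraMap]; exact hroot'
  · by_contra hall
    push Not at hall
    have hdvd : ∀ i, (ℓ : ℤ) ∣ p₀.primPart.coeff i := fun i =>
      hQℓ _ (by simpa [coeff_map] using hall i)
    have hu := hprim (ℓ : ℤ) ((C_dvd_iff_dvd_coeff _ _).mpr hdvd)
    have := Int.isUnit_iff.mp hu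
    have h2 := hℓ.two_le
    omega

/-- The localisation of `Zbar` at a maximal ideal over `ℓ`, as a valuation subring. -/
noncomputable def locValuationSubring (Q : Ideal Zbar) (hQ : Q.IsPrime) (ℓ : ℕ) (hℓ : ℓ.Prime)
    (hQℓ : ∀ n : ℤ, (n : Zbar) ∈ Q → (ℓ : ℤ) ∣ n) : ValuationSubring (AlgebraicClosure ℚ) where
  carrier := {x | ∃ b s : Zbar, s ∉ Q ∧ x * (s : AlgebraicClosure ℚ) = b}
  mul_mem' := by
    rintro x y ⟨b, s, hs, h⟩ ⟨c, t, ht, h'⟩
    refine ⟨b * c, s * t, fun hst => (hQ.mem_or_mem hst).elim hs ht, ?_⟩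
    push_cast
    rw [← h, ← h']; ring
  one_mem' := ⟨1, 1, fun h => hQ.ne_top ((Ideal.eq_top_iff_one Q).mpr h), by simp⟩
  add_mem' := by
    rintro x y ⟨b, s, hs, h⟩ ⟨c, t, ht, h'⟩
    refine ⟨b * t + c * s, s * t, fun hst => (hQ.mem_or_mem hst).elim hs ht, ?_⟩
    push_cast
    rw [← h, ← h']; ring
  zero_mem' := ⟨0, 1, fun h => hQ.ne_top ((Ideal.eq_top_iff_one Q).mpr h), by simp⟩
  neg_mem' := by
    rintro x ⟨b, s, hs, h⟩
    refine ⟨-b, s, hs, ?_⟩
    push_cast
    rw [← h]; ring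
  mem_or_inv_mem' := by
    intro x
    obtain ⟨p, hroot, hcoeff⟩ := exists_poly_coeff_notMem Q ℓ hℓ hQℓ x
    exact frac_or_inv_frac Q x p.natDegree p le_rfl hroot hcoeff

theorem mem_locValuationSubring {Q : Ideal Zbar} {hQ : Q.IsPrime} {ℓ : ℕ} {hℓ : ℓ.Prime}
    {hQℓ : ∀ n : ℤ, (n : Zbar) ∈ Q → (ℓ : ℤ) ∣ n} {x : AlgebraicClosure ℚ} :
    x ∈ locValuationSubring Q hQ ℓ hℓ hQℓ ↔
      ∃ b s : Zbar, s ∉ Q ∧ x * (s : AlgebraicClosure ℚ) = b := Iff.rfl


/-- **Existence of Frobenius elements** in `Gal(ℚ̄/ℚ)`: for every prime `ℓ` there are a valuation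
subring `A` of `ℚ̄` over `ℓ` and an element `σ` of the decomposition group of `A` acting on the
residue field of `A` as `x ↦ x ^ ℓ`. -/
theorem exists_isFrobeniusAt_aux (ℓ : ℕ) (hℓ : ℓ.Prime) :
    ∃ (A : ValuationSubring (AlgebraicClosure ℚ))
      (σ : AlgebraicClosure ℚ ≃ₐ[ℚ] AlgebraicClosure ℚ),
      A.LiesOverPrime ℓ ∧ A.IsFrobeniusAt σ ℓ := by
  obtain ⟨Q, g, hQmax, hℓQ, hQℓ, hgQ, hfrob⟩ := exists_frobenius_lift_Zbar ℓ hℓ
  have hQ : Q.IsPrime := hQmax.isPrime
  have h1Q : (1 : Zbar) ∉ Q := fun h => hQ.ne_top ((Ideal.eq_top_iff_one Q).mpr h)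
  set A := locValuationSubring Q hQ ℓ hℓ hQℓ with hA
  have hincl : ∀ b : Zbar, (b : AlgebraicClosure ℚ) ∈ A := fun b => ⟨b, 1, h1Q, by simp⟩
  have hQmem : ∀ (b : Zbar), b ∈ Q →
      (⟨(b : AlgebraicClosure ℚ), hincl b⟩ : A) ∈ IsLocalRing.maximalIdeal A := by
    intro b hb
    rw [IsLocalRing.mem_maximalIdeal, mem_nonunits_iff]
    intro hu
    obtain ⟨⟨u, c, s, hs, h⟩, hu⟩ := isUnit_iff_exists_inv.mp hu
    have hbu : (b : AlgebraicClosure ℚ) * u = 1 := congrArg Subtype.val hu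
    apply hs
    have : s = b * c := by
      apply Subtype.ext
      push_cast
      rw [← h, ← mul_assoc, hbu, one_mul]
    rw [this]
    exact Q.mul_mem_right _ hb
  have hunit : ∀ (s : Zbar), s ∉ Q → IsUnit (⟨(s : AlgebraicClosure ℚ), hincl s⟩ : A) := by
    intro s hs
    have hs0 : (s : AlgebraicClosure ℚ) ≠ 0 := by
      intro h
      apply hs
      have : s = 0 := Subtype.ext h
      rw [this]; exact Q.zero_mem
    refine isUnit_iff_exists_inv.mpr ⟨⟨(s : AlgebraicClosure ℚ)⁻¹, 1, s, hs, ?_⟩, ?_⟩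
    · rw [inv_mul_cancel₀ hs0]; simp
    · exact Subtype.ext (mul_inv_cancel₀ hs0)
  have hstab : ∀ τ : AlgebraicClosure ℚ ≃ₐ[ℚ] AlgebraicClosure ℚ, τ • Q = Q →
      ∀ x ∈ A, τ x ∈ A := by
    rintro τ hτ x ⟨b, s, hs, h⟩
    refine ⟨τ • b, τ • s, ?_, ?_⟩
    · intro h'
      rw [← hτ] at h'
      exact hs (Ideal.smul_mem_pointwise_smul_iff.mp h')
    · rw [coe_smul_Zbar, coe_smul_Zbar, ← map_mul, h]
  have hgQ' : g⁻¹ • Q = Q := by rw [inv_smul_eq_iff, hgQ]
  have hgA : g ∈ A.decompositionSubgroup ℚ := by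
    rw [MulAction.mem_stabilizer_iff]
    ext x
    rw [ValuationSubring.mem_pointwise_smul_iff_inv_smul_mem]
    constructor
    · intro hx
      have := hstab g hgQ _ hx
      rwa [AlgEquiv.smul_def, ← AlgEquiv.mul_apply, mul_inv_cancel, AlgEquiv.one_apply] at this
    · intro hx
      exact hstab g⁻¹ hgQ' x hx
  refine ⟨A, g, ?_, hgA, ?_⟩
  · -- `ℓ` is a nonunit of `A`
    show ((ℓ : ℕ) : AlgebraicClosure ℚ) ∈ A.nonunits
    rw [ValuationSubring.mem_nonunits_iff_exists_mem_maximalIdeal]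
    have hcast : (((ℓ : ℤ) : Zbar) : AlgebraicClosure ℚ) = ((ℓ : ℕ) : AlgebraicClosure ℚ) := by
      simp
    refine ⟨hcast ▸ hincl _, ?_⟩
    have := hQmem _ hℓQ
    convert this using 2
    exact hcast.symm
  · -- Frobenius on the residue field
    intro x
    obtain ⟨a, rfl⟩ := IsLocalRing.residue_surjective x
    obtain ⟨a, b, s, hs, h⟩ := a
    set γ : A.decompositionSubgroup ℚ := ⟨g, hgA⟩ with hγ
    set a' : A := ⟨a, b, s, hs, h⟩ with ha'
    let s' : A := ⟨(s : AlgebraicClosure ℚ), hincl s⟩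
    let b' : A := ⟨(b : AlgebraicClosure ℚ), hincl b⟩
    have hab : a' * s' = b' := Subtype.ext h
    have hres : ∀ c : Zbar, IsLocalRing.residue A (γ • (⟨(c : AlgebraicClosure ℚ), hincl c⟩ : A)) =
        IsLocalRing.residue A (⟨(c : AlgebraicClosure ℚ), hincl c⟩ : A) ^ ℓ := by
      intro c
      rw [← map_pow, ← sub_eq_zero, ← map_sub, IsLocalRing.residue_eq_zero_iff]
      have := hQmem _ (hfrob c)
      convert this using 1
      exact Subtype.ext rfl
    have h2 : γ • a' * γ • s' = γ • b' := by rw [← smul_mul', hab]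
    have hs1 : IsLocalRing.residue A (γ • s') = IsLocalRing.residue A s' ^ ℓ := hres s
    have hb1 : IsLocalRing.residue A (γ • b') = IsLocalRing.residue A b' ^ ℓ := hres b
    have h3 : IsLocalRing.residue A (γ • a') * IsLocalRing.residue A s' ^ ℓ =
        IsLocalRing.residue A a' ^ ℓ * IsLocalRing.residue A s' ^ ℓ := by
      calc IsLocalRing.residue A (γ • a') * IsLocalRing.residue A s' ^ ℓ
          = IsLocalRing.residue A (γ • a') * IsLocalRing.residue A (γ • s') := by rw [hs1]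
        _ = IsLocalRing.residue A (γ • b') := by rw [← map_mul, h2]
        _ = IsLocalRing.residue A (a' * s') ^ ℓ := by rw [hb1, hab]
        _ = _ := by rw [map_mul, mul_pow]
    have hs'0 : IsLocalRing.residue A s' ^ ℓ ≠ 0 :=
      pow_ne_zero _ ((hunit s hs).map (IsLocalRing.residue A)).ne_zero
    have h4 := mul_right_cancel₀ hs'0 h3
    rw [← IsLocalRing.ResidueField.residue_smul]
    exact h4

end Fermat.Agent.Lib.Frob

namespace Fermat.Agent.Lib

/-- **Existence of Frobenius elements** in `Gal(ℚ̄/ℚ)`: for every prime `ℓ` there are a valuation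
subring `A` of `ℚ̄` over `ℓ` and `σ` in the decomposition group of `A` acting on the residue field
of `A` as `x ↦ x ^ ℓ`. -/
theorem exists_isFrobeniusAt (ℓ : ℕ) (hℓ : ℓ.Prime) :
    ∃ (A : ValuationSubring (AlgebraicClosure ℚ))
      (σ : AlgebraicClosure ℚ ≃ₐ[ℚ] AlgebraicClosure ℚ),
      A.LiesOverPrime ℓ ∧ A.IsFrobeniusAt σ ℓ :=
  Frob.exists_isFrobeniusAt_aux ℓ hℓ

end Fermat.Agent.Lib
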